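import Fermat.Agent.CMRayClass.Torsion
import Fermat.Agent.Tau.Homothety

/-!
# The lattices with four or six automorphisms

For `d = -1` and `d = -3` a lattice whose multipliers are the maximal order of `ℚ(√d)` is a multiple
of `ℤ + ℤ u` for a primitive fourth or sixth root of unity `u`, every unit multiplier `ε` has
`ε ^ (2 k) = 1` with `k = 2` or `3`, and `℘ (ε z) ^ k = ℘ (z) ^ k`.
-/

set_option autoImplicit false
set_option linter.style.haveILetI false

noncomputable section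

open FA.CMFields FA.Singular FA.Mazur.Wp
open FA.FieldClassBound (discK)
open FA.ClassNumberOne (scaled mem_scaled g₂_scaled g₃_scaled g_congr)

namespace FA.CMWeber

/-- The two fields with units other than `± 1`, with half their number of units. -/
def Special (d : ℤ) (k : ℕ) : Prop := d = -1 ∧ k = 2 ∨ d = -3 ∧ k = 3

/-- A primitive `2 k`-th root of unity in the maximal order. -/
def rot (d : ℤ) : ℂ := 2 + omega (discK d)

variable {d : ℤ} {k : ℕ}

theorem Special.neg (h : Special d k) : d < 0 := by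
  rcases h with ⟨rfl, -⟩ | ⟨rfl, -⟩ <;> norm_num

theorem Special.squarefree (h : Special d k) : Squarefree d := by
  rcases h with ⟨rfl, -⟩ | ⟨rfl, -⟩
  · exact (isUnit_one.neg).squarefree
  · exact (Int.prime_three.neg).squarefree

theorem Special.prime (h : Special d k) : k.Prime := by
  rcases h with ⟨-, rfl⟩ | ⟨-, rfl⟩ <;> norm_num

theorem rot_sq (h : Special d k) :
    rot d ^ 2 = -1 ∧ k = 2 ∨ rot d ^ 2 = rot d - 1 ∧ k = 3 := by
  rcases h with ⟨rfl, rfl⟩ | ⟨rfl, rfl⟩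
  · refine Or.inl ⟨?_, rfl⟩
    have hD : discK (-1) = -4 := by norm_num [discK]
    have hs : Real.sqrt 4 = 2 := by
      rw [show (4 : ℝ) = 2 ^ 2 by norm_num, Real.sqrt_sq]; norm_num
    rw [rot, omega, hD]
    push_cast
    rw [neg_neg, hs]
    push_cast
    linear_combination Complex.I_sq
  · refine Or.inr ⟨?_, rfl⟩
    have hD : discK (-3) = -3 := by norm_num [discK]
    have hs : ((Real.sqrt 3 : ℝ) : ℂ) ^ 2 = 3 := by
      rw [← Complex.ofReal_pow, Real.sq_sqrt (by norm_num : (0 : ℝ) ≤ 3)]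
      norm_num
    rw [rot, omega, hD]
    push_cast
    rw [neg_neg]
    linear_combination ((Real.sqrt 3 : ℝ) : ℂ) ^ 2 / 4 * Complex.I_sq - 1 / 4 * hs

theorem rot_pow (h : Special d k) : rot d ^ (2 * k) = 1 := by
  rcases rot_sq h with ⟨e, rfl⟩ | ⟨e, rfl⟩
  · rw [pow_mul, e]; norm_num
  · linear_combination (rot d ^ 4 + rot d ^ 3 - rot d - 1) * e

theorem rot_ne_zero (h : Special d k) : rot d ≠ 0 := fun e => by
  have := rot_pow h
  rw [e, zero_pow (mul_ne_zero two_ne_zero h.prime.ne_zero)] at this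
  exact zero_ne_one this

theorem isPrimitiveRoot_rot_sq (h : Special d k) : IsPrimitiveRoot (rot d ^ 2) k := by
  haveI := Fact.mk h.prime
  have h1 : rot d ^ 2 ≠ 1 := by
    rcases rot_sq h with ⟨e, -⟩ | ⟨e, -⟩ <;> rw [e]
    · norm_num
    · intro h2
      have h3 : rot d = 2 := by linear_combination h2
      rw [h3] at e
      norm_num at e
  have e := orderOf_eq_prime (by rw [← pow_mul]; exact rot_pow h) h1
  exact e ▸ IsPrimitiveRoot.orderOf _

theorem stable_pow {L : PeriodPair} {w : ℂ} (hw : Stable L w) : ∀ i : ℕ, Stable L (w ^ i)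
  | 0 => fun l hl => by simpa using hl
  | i + 1 => fun l hl => by
    rw [pow_succ, mul_assoc]
    exact stable_pow hw i _ (hw l hl)

theorem stable_rot {L : PeriodPair} (hL : IsMultiplierRing L (discK d)) : Stable L (rot d) :=
  (hL _).2 ⟨2, 1, by rw [rot]; push_cast; ring⟩

theorem stable_rot_inv {L : PeriodPair} (h : Special d k) (hL : Stable L (rot d)) :
    Stable L (rot d)⁻¹ := by
  have e : (rot d)⁻¹ = rot d ^ (2 * k - 1) := by
    refine inv_eq_of_mul_eq_one_left ?_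
    rw [← pow_succ, show 2 * k - 1 + 1 = 2 * k by have := h.prime.pos; omega, rot_pow h]
  exact e ▸ stable_pow hL _

/-- The invariants of a lattice with a unit multiplier. -/
theorem g_mul_of_stable {L : PeriodPair} {ε : ℂ} (hε : ε ≠ 0) (h : Stable L ε)
    (h' : Stable L ε⁻¹) : ε ^ 4 * L.g₂ = L.g₂ ∧ ε ^ 6 * L.g₃ = L.g₃ := by
  have hlat : (scaled L hε).lattice = L.lattice := by
    ext x
    rw [mem_scaled]
    refine ⟨fun hx => ?_, fun hx => ?_⟩
    · have := h _ hx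
      rwa [mul_comm x, ← mul_assoc, mul_inv_cancel₀ hε, one_mul] at this
    · rw [mul_comm]; exact h' x hx
  obtain ⟨e2, e3⟩ := g_congr hlat
  rw [g₂_scaled, inv_pow, inv_mul_eq_iff_eq_mul₀ (pow_ne_zero _ hε)] at e2
  rw [g₃_scaled, inv_pow, inv_mul_eq_iff_eq_mul₀ (pow_ne_zero _ hε)] at e3
  exact ⟨e2.symm, e3.symm⟩

/-- `℘` at the multiple by a unit. -/
theorem weierstrassP_unit_mul {L : PeriodPair} {ε : ℂ} (hε : ε ≠ 0) (h : Stable L ε)
    (h' : Stable L ε⁻¹) (z : ℂ) :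
    L.weierstrassP (ε * z) = ε⁻¹ ^ 2 * L.weierstrassP z := by
  let e : L.lattice ≃ L.lattice := (Equiv.mulLeft₀ ε hε).subtypeEquiv fun x =>
    ⟨fun hx => h x hx, fun hx => by
      have := h' _ hx
      simpa [hε] using this⟩
  rw [← (L.hasSum_weierstrassP (ε * z)).tsum_eq, ← (L.hasSum_weierstrassP z).tsum_eq,
    ← tsum_mul_left, ← e.tsum_eq]
  refine tsum_congr fun l => ?_
  show 1 / (ε * z - ε * (l : ℂ)) ^ 2 - 1 / (ε * (l : ℂ)) ^ 2 = _
  rw [← mul_sub, mul_pow, mul_pow, inv_pow]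
  field_simp

theorem g_vanish {L : PeriodPair} (h : Special d k) (hL : Stable L (rot d)) :
    k = 2 ∧ L.g₃ = 0 ∧ L.g₂ ≠ 0 ∨ k = 3 ∧ L.g₂ = 0 ∧ L.g₃ ≠ 0 := by
  obtain ⟨e2, e3⟩ := g_mul_of_stable (rot_ne_zero h) hL (stable_rot_inv h hL)
  have hΔ := FA.Summary.lattice_discriminant_ne_zero L
  rcases rot_sq h with ⟨e, rfl⟩ | ⟨e, rfl⟩
  · have h3 : L.g₃ = 0 := by
      rw [show rot d ^ 6 = (rot d ^ 2) ^ 3 by ring, e] at e3
      linear_combination (-(1 / 2) : ℂ) * e3
    exact Or.inl ⟨rfl, h3, fun h2 => hΔ (by rw [h2, h3]; ring)⟩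
  · have h4 : (rot d + 1) * L.g₂ = 0 := by
      linear_combination (rot d ^ 2 + rot d) * L.g₂ * e - e2
    have h1 : rot d + 1 ≠ 0 := fun h0 => by
      rw [show rot d = -1 by linear_combination h0] at e
      norm_num at e
    have h2 := (mul_eq_zero.mp h4).resolve_left h1
    exact Or.inr ⟨rfl, h2, fun h3 => hΔ (by rw [h2, h3]; ring)⟩

/-- **The unit multipliers are `2 k`-th roots of unity.** -/
theorem unit_pow {L : PeriodPair} (h : Special d k) (hL : Stable L (rot d)) {ε : ℂ} (hε : ε ≠ 0)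
    (h1 : Stable L ε) (h2 : Stable L ε⁻¹) : ε ^ (2 * k) = 1 := by
  obtain ⟨e2, e3⟩ := g_mul_of_stable hε h1 h2
  rcases g_vanish h hL with ⟨rfl, -, hne⟩ | ⟨rfl, -, hne⟩
  · exact mul_right_cancel₀ hne (e2.trans (one_mul _).symm)
  · exact mul_right_cancel₀ hne (e3.trans (one_mul _).symm)

/-- **`℘ ^ k` is invariant under the units.** -/
theorem weierstrassP_pow_unit {L : PeriodPair} (h : Special d k) (hL : Stable L (rot d)) {ε : ℂ}
    (hε : ε ≠ 0) (h1 : Stable L ε) (h2 : Stable L ε⁻¹) (z : ℂ) :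
    L.weierstrassP (ε * z) ^ k = L.weierstrassP z ^ k := by
  rw [weierstrassP_unit_mul hε h1 h2, mul_pow, ← pow_mul, inv_pow, unit_pow h hL hε h1 h2, inv_one,
    one_mul]

theorem rot_im_pos (h : Special d k) : 0 < (rot d).im := by
  rw [rot, Complex.add_im, omega_im]
  have := Real.sqrt_pos.mpr (neg_pos.mpr (Int.cast_lt_zero (R := ℝ) |>.mpr
    (FA.FieldClassBound.discK_neg h.neg)))
  simp only [show (2 : ℂ).im = 0 from rfl]
  linarith

/-- **The lattice is a multiple of `ℤ + ℤ u`.** -/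
theorem exists_scale_rot {L : PeriodPair} (h : Special d k) (hL : Stable L (rot d)) :
    ∃ c : ℂ, c ≠ 0 ∧
      ∀ x : ℂ, x ∈ L.lattice ↔ ∃ i j : ℤ, x = c * ((i : ℂ) + (j : ℂ) * rot d) := by
  let τ : UpperHalfPlane := ⟨rot d, rot_im_pos h⟩
  have hτ : Stable (latPair τ) (rot d) := by
    intro x hx
    obtain ⟨a, b, rfl⟩ := mem_latPair.mp hx
    rcases rot_sq h with ⟨e, -⟩ | ⟨e, -⟩
    · refine mem_latPair.mpr ⟨b, -a, ?_⟩
      show ((b : ℤ) : ℂ) * rot d + ((-a : ℤ) : ℂ) = rot d * ((a : ℂ) * rot d + (b : ℂ))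
      push_cast
      linear_combination (-(a : ℂ)) * e
    · refine mem_latPair.mpr ⟨a + b, -a, ?_⟩
      show ((a + b : ℤ) : ℂ) * rot d + ((-a : ℤ) : ℂ) = rot d * ((a : ℂ) * rot d + (b : ℂ))
      push_cast
      linear_combination (-(a : ℂ)) * e
  have hj : (latCurve (latPair τ)).j = (latCurve L).j := by
    rw [FA.Homothety.j_latCurve, FA.Homothety.j_latCurve]
    rcases g_vanish h hτ with ⟨hk, h0, hne⟩ | ⟨hk, h0, hne⟩ <;>
      rcases g_vanish h hL with ⟨hk', h0', hne'⟩ | ⟨hk', h0', hne'⟩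
    · rw [h0, h0']; ring_nf; field_simp
    · omega
    · omega
    · rw [h0, h0']; simp
  obtain ⟨c, hc, e⟩ := (FA.Homothety.homothetic_iff_j _ _).mpr hj
  refine ⟨c, hc, fun x => ?_⟩
  rw [← SetLike.mem_coe, e, Set.mem_image]
  constructor
  · rintro ⟨y, hy, rfl⟩
    obtain ⟨a, b, rfl⟩ := mem_latPair.mp hy
    exact ⟨b, a, congrArg (c * ·) (add_comm _ _)⟩
  · rintro ⟨i, j, rfl⟩
    exact ⟨_, mem_latPair.mpr ⟨j, i, rfl⟩, congrArg (c * ·) (add_comm _ _)⟩

end FA.CMWeber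

end
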