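import Fermat.Agent.CMWeber.Lattice

/-!
# The points killed by `n` on the curves with four or six automorphisms

For `d = -1` and `d = -3` the points killed by `n` are free of rank one over `𝓞/n`, the rotation
multiplies the abscissae by a primitive `k`th root of unity and the units fix their `k`th powers.
-/

set_option autoImplicit false
set_option linter.style.haveILetI false
set_option linter.unusedSectionVars false

noncomputable section

open WeierstrassCurve FA.Mazur.Wp FA.IsogenyNF FA.CMFields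
open FA.Singular (Stable)
open FA.FieldClassBound (discK)
open FA.ClassNumberOne (xP xP_unif)
open scoped WeierstrassCurve.Affine

universe u v

namespace FA.CMWeber

variable {F : Type u} [Field F] [CharZero F] {Kb : Type v} [Field Kb] [DecidableEq Kb]
  [Algebra F Kb] [CharZero Kb] [IsAlgClosed Kb] [Algebra.IsAlgebraic F Kb]

/-- **The action on the points killed by `n`.** -/
theorem exists_rot_action {W : WeierstrassCurve F} [W.IsElliptic] {φ : Kb →+* ℂ} {L : PeriodPair}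
    (hL : (W.baseChange Kb).map φ = latCurve L) {d : ℤ} {k : ℕ} (h : Special d k)
    (hring : IsMultiplierRing L (discK d)) {s : Kb} (hs : s ^ 2 = (d : Kb)) {n : ℕ} (hn : n ≠ 0) :
    ∃ (θ : (W.toAffine⁄Kb).Point →+ (W.toAffine⁄Kb).Point) (t m : ℤ)
      (g : (W.toAffine⁄Kb).Point) (ζ : Kb),
      omega (discK d) ^ 2 - (t : ℂ) * omega (discK d) + (m : ℂ) = 0 ∧
      (∀ P : (W.toAffine⁄Kb).Point, n • P = 0 → θ (θ P) = t • θ P - m • P) ∧
      (∀ σ : Kb ≃ₐ[F] Kb, σ s = s → (∀ P, θ (σ • P) = σ • θ P) ∧ ∃ α k : ℤ,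
        ∀ P : (W.toAffine⁄Kb).Point, n • P = 0 → σ • P = α • P + k • θ P) ∧
      (∀ c c' : ℤ, (∀ P : (W.toAffine⁄Kb).Point, n • P = 0 → c • P + c' • θ P = 0) →
        (n : ℤ) ∣ c ∧ (n : ℤ) ∣ c') ∧
      IsPrimitiveRoot ζ k ∧ (∀ σ : Kb ≃ₐ[F] Kb, σ s = s → σ ζ = ζ) ∧
      n • g = 0 ∧ (∀ P : (W.toAffine⁄Kb).Point, n • P = 0 → ∃ i j : ℤ, P = i • g + j • θ g) ∧
      (∀ P : (W.toAffine⁄Kb).Point, xP ((2 : ℤ) • P + θ P) * ζ = xP P) ∧
      ∀ a b : ℤ, (a : ℂ) + (b : ℂ) * omega (discK d) ≠ 0 →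
        Stable L ((a : ℂ) + (b : ℂ) * omega (discK d)) →
        Stable L ((a : ℂ) + (b : ℂ) * omega (discK d))⁻¹ →
          ∀ P : (W.toAffine⁄Kb).Point, xP (a • P + b • θ P) ^ k = xP P ^ k := by
  have hrot := stable_rot hring
  have hω : ∀ i : ℤ, omega (discK d) ≠ i := fun i hi => by
    have := rot_im_pos h
    rw [rot, hi] at this
    simp at this
  obtain ⟨ω₀, θ, t, m, hω₀, hθ, hquad, hcomm, hθθ, hact, hfaith⟩ :=
    FA.CMRayClass.exists_action_short hL hω ((hring _).2 ⟨0, 1, by simp⟩)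
      (FA.CMRayClass.primitive_omega h.neg hring) hn
  have hfix : ∀ σ : Kb ≃ₐ[F] Kb, σ s = s → σ ω₀ = ω₀ := fun σ =>
    FA.CMRayClass.fix_omega h.neg hs hω₀
  have hlin : ∀ (a b : ℤ) (P : (W.toAffine⁄Kb).Point) (z : ℂ), unif L z = toC W φ hL P →
      toC W φ hL (a • P + b • θ P) = unif L (((a : ℂ) + (b : ℂ) * omega (discK d)) * z) :=
    fun a b P z hz => by
      rw [map_add, map_zsmul, map_zsmul, hθ P z hz, ← hz, ← unif_int_mul, ← unif_int_mul,
        ← unif_add]
      congr 1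
      ring
  have hx : ∀ (P : (W.toAffine⁄Kb).Point) (z : ℂ), unif L z = toC W φ hL P →
      φ (xP P) = L.weierstrassP z := fun P z hz => by rw [← xP_toC (hL := hL), ← hz, xP_unif]
  -- the generator
  obtain ⟨c, hc, hlat⟩ := exists_scale_rot h hrot
  have hnC : (n : ℂ) ≠ 0 := Nat.cast_ne_zero.2 hn
  obtain ⟨g, hg, hng⟩ : ∃ g : (W.toAffine⁄Kb).Point,
      toC W φ hL g = unif L (c / n) ∧ n • g = 0 :=
    exists_of_nsmul_eq_zero (hL := hL) hn (Q := unif L (c / n)) (by
      rw [← natCast_zsmul, ← unif_int_mul, Int.cast_natCast, mul_div_cancel₀ _ hnC]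
      exact unif_of_mem L ((hlat c).mpr ⟨1, 0, by simp⟩))
  refine ⟨θ, t, m, g, (2 + ω₀) ^ 2, hquad, hθθ,
    fun σ hσ => ⟨hcomm σ (hfix σ hσ), hact σ (hfix σ hσ)⟩, hfaith, ?_,
    fun σ hσ => by rw [map_pow, map_add, map_ofNat, hfix σ hσ], hng, fun P hP => ?_, fun P => ?_,
    fun a b hab h1 h2 P => ?_⟩
  · refine IsPrimitiveRoot.of_map_of_injective (f := φ) ?_ φ.injective
    rw [map_pow, map_add, map_ofNat, hω₀]
    exact isPrimitiveRoot_rot_sq h
  · obtain ⟨z, hz⟩ := exists_preimage (hL := hL) P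
    have hmem : (n : ℂ) * z ∈ L.lattice := by
      rw [← unif_eq_zero_iff, ← Int.cast_natCast, unif_int_mul, hz, natCast_zsmul, ← map_nsmul,
        hP, map_zero]
    obtain ⟨i, j, hij⟩ := (hlat _).mp hmem
    refine ⟨i + 2 * j, j, FA.Frob.mapHom_injective φ hL ?_⟩
    refine hz.symm.trans ((congrArg (unif L) ?_).trans (hlin _ _ g _ hg.symm).symm)
    rw [rot] at hij
    push_cast
    field_simp
    linear_combination hij
  · obtain ⟨z, hz⟩ := exists_preimage (hL := hL) P
    apply φ.injective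
    have e : toC W φ hL ((2 : ℤ) • P + θ P) = unif L (rot d * z) := by
      rw [rot, ← one_zsmul (θ P), hlin _ _ P z hz]
      congr 1
      push_cast
      ring
    rw [map_mul, map_pow, map_add, map_ofNat, hω₀, hx P z hz, hx _ _ e.symm,
      weierstrassP_unit_mul (rot_ne_zero h) hrot (stable_rot_inv h hrot)]
    show _ * rot d ^ 2 = _
    rw [inv_pow, mul_comm, ← mul_assoc, mul_inv_cancel₀ (pow_ne_zero _ (rot_ne_zero h)), one_mul]
  · obtain ⟨z, hz⟩ := exists_preimage (hL := hL) P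
    apply φ.injective
    rw [map_pow, map_pow, hx P z hz, hx _ _ (hlin a b P z hz).symm,
      weierstrassP_pow_unit h hrot hab h1 h2]

end FA.CMWeber

end
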