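import Fermat.Agent.CMWeber.Twist
import Fermat.Agent.CMRayClass.Closure
import Fermat.Agent.Root.SummaryRayClassFields

/-!
# The ray class fields of `ℚ(i)` and `ℚ(ζ₃)`

The field generated over `K` by `j` and the `k`th powers of the abscissae, on a short model, of the
points killed by `n` has at most the ray class number modulo `n` as degree and contains the ray
class field.
-/

set_option autoImplicit false
set_option linter.style.haveILetI false
set_option linter.unusedSectionVars false

noncomputable section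

open WeierstrassCurve NumberField IsDedekindDomain Module FA.IsogenyNF FA.CMFields FA.CMRayClass
open FA.Singular (Stable)
open FA.FieldClassBound (discK exists_emb exists_omega exists_omega_coord)
open FA.Hecke (RayClassGroup)
open FA.RayFields (FrobeniusClasses)
open FA.ClassNumberOne (xP)
open scoped WeierstrassCurve.Affine Classical

local notation "Qb" => AlgebraicClosure ℚ
local notation "GQ" => AlgebraicClosure ℚ ≃ₐ[ℚ] AlgebraicClosure ℚ
local notation "𝕆[" s "]" => 𝓞 (IntermediateField.adjoin ℚ ({s} : Set (AlgebraicClosure ℚ)))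

namespace FA.CMWeber

variable {d : ℤ} {k : ℕ}

/-- The generators: Weber's functions of the points killed by `n`. -/
def weberValues {F : IntermediateField ℚ Qb} (W : WeierstrassCurve F) (k n : ℕ) [W.IsElliptic] :
    Set Qb :=
  (fun P => xP P ^ k) '' {P : (W.toAffine⁄Qb).Point | n • P = 0}

/-- **The degree of the field of Weber's values.** -/
theorem finrank_adjoin_weber_le (h : Special d k) (F : IntermediateField ℚ Qb)
    [FiniteDimensional ℚ F] (E : WeierstrassCurve F) [E.IsElliptic] [(shortModel E).IsElliptic]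
    (hF : F = IntermediateField.adjoin ℚ {(E.j : Qb)}) (ψ : F →+* ℂ) {L : PeriodPair}
    (hg2 : L.g₂ = ψ E.c₄ / 12) (hg3 : L.g₃ = ψ E.c₆ / 216)
    (hring : IsMultiplierRing L (discK d)) {s : Qb} (hs : s ^ 2 = (d : Qb))
    [NumberField (IntermediateField.adjoin ℚ {s})] {n : ℕ} (hn : n ≠ 0) :
    finrank ℚ (IntermediateField.adjoin ℚ ((F : Set Qb) ∪ {s} ∪
        weberValues (shortModel E) k n)) ≤
      2 * Nat.card (RayClassGroup (Ideal.span {(n : 𝕆[s])})) := by
  haveI : Algebra.IsAlgebraic F Qb := Algebra.IsAlgebraic.tower_top (K := ℚ) F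
  have hd0 := h.neg
  have hd := h.squarefree
  obtain ⟨φ, hL, -⟩ := exists_short_emb E ψ hg2 hg3
  obtain ⟨θ, t, m, -, -, hquad, hθθ, hact, hfaith, -, -, -, -, -, hunit⟩ :=
    exists_rot_action hL h hring hs hn
  have hK := FA.Jugendtraum.finrank_adjoin_sqrt hd0 hs
  set sK : IntermediateField.adjoin ℚ {s} :=
    ⟨s, IntermediateField.mem_adjoin_simple_self ℚ s⟩
  have hsK : sK ^ 2 = (d : IntermediateField.adjoin ℚ {s}) :=
    Subtype.ext (by simpa [sK] using hs)
  obtain ⟨e, he⟩ := exists_emb hd0 hsK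
  obtain ⟨w, hw⟩ := exists_omega hsK he
  refine (finrank_adjoin_invariant_le F (shortModel E) hd hd0 hs hn θ hquad hθθ hact hfaith
    (h := fun P => xP P ^ k)
    (fun σ P => by rw [map_pow]; exact congrArg (· ^ k) (FA.IsogenyNF.xP_smul (σ := σ) P))
    he hw (Units.map (Ideal.Quotient.mk (Ideal.span {(n : 𝕆[s])})).toMonoidHom).range
    ?_).trans ?_
  · rintro _ ⟨u, rfl⟩
    obtain ⟨a, b, hab⟩ := exists_omega_coord hK hd hd0 hsK he (u : 𝕆[s])
    obtain ⟨a', b', hab'⟩ := exists_omega_coord hK hd hd0 hsK he ((u⁻¹ : 𝕆[s]ˣ) : 𝕆[s])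
    have hu : (u : 𝕆[s]) = (a : 𝕆[s]) + (b : 𝕆[s]) * w :=
      RingOfIntegers.coe_injective (e.injective (by simp [hab, hw]))
    refine ⟨a, b, by rw [← hu]; rfl, fun P _ => ?_⟩
    have hmul : ((a : ℂ) + (b : ℂ) * omega (discK d)) * ((a' : ℂ) + (b' : ℂ) * omega (discK d)) =
        1 := by
      rw [← hab, ← hab', ← map_mul, ← map_mul, Units.mul_inv, map_one, map_one]
    refine hunit a b (left_ne_zero_of_mul_eq_one hmul) ((hring _).2 ⟨a, b, rfl⟩) ?_ P
    rw [inv_eq_of_mul_eq_one_right hmul]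
    exact (hring _).2 ⟨a', b', rfl⟩
  · refine le_trans ?_ (Nat.mul_le_mul_left 2 (classNumber_mul_range_le hn))
    rw [← mul_assoc]
    refine Nat.mul_le_mul_right _ ((IntermediateField.finrank_sup_le _ _).trans ?_)
    rw [hK, classNumber_adjoin hd hd0 hs, hF,
      (exists_curve_adjoin_j E ψ (FA.FieldClassBound.discK_neg hd0) hg2 hg3 hring).1, mul_comm]

/-- The automorphisms fixing the field of Weber's values. -/
theorem fix_of_mem_fixingSubgroup (F : IntermediateField ℚ Qb) (W : WeierstrassCurve F)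
    [W.IsElliptic] (s : Qb) (k n : ℕ) {σ : GQ}
    (hσ : σ ∈ (IntermediateField.adjoin ℚ ((F : Set Qb) ∪ {s} ∪
      weberValues W k n)).fixingSubgroup) :
    σ s = s ∧ (∀ z ∈ F, σ z = z) ∧
      ∀ P : (W.toAffine⁄Qb).Point, n • P = 0 → σ (xP P ^ k) = xP P ^ k := by
  rw [IntermediateField.mem_fixingSubgroup_iff] at hσ
  exact ⟨hσ s (IntermediateField.subset_adjoin ℚ _ (Or.inl (Or.inr (Set.mem_singleton s)))),
    fun z hz => hσ z (IntermediateField.subset_adjoin ℚ _ (Or.inl (Or.inl hz))),
    fun P hP => hσ _ (IntermediateField.subset_adjoin ℚ _ (Or.inr ⟨P, hP, rfl⟩))⟩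

/-- **The field of Weber's values is the ray class field.** -/
theorem weber_ray_class_field (h : Special d k) (F : IntermediateField ℚ Qb)
    [FiniteDimensional ℚ F] (E : WeierstrassCurve F) [E.IsElliptic] [(shortModel E).IsElliptic]
    (hF : F = IntermediateField.adjoin ℚ {(E.j : Qb)}) (ψ : F →+* ℂ) {L : PeriodPair}
    (hg2 : L.g₂ = ψ E.c₄ / 12) (hg3 : L.g₃ = ψ E.c₆ / 216)
    (hring : IsMultiplierRing L (discK d)) {s : Qb} (hs : s ^ 2 = (d : Qb))
    [NumberField (IntermediateField.adjoin ℚ {s})] {n : ℕ} (hn : n ≠ 0)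
    {M : IntermediateField ℚ Qb}
    (hM : M = IntermediateField.adjoin ℚ ((F : Set Qb) ∪ {s} ∪
      weberValues (shortModel E) k n)) :
    finrank ℚ M = 2 * Nat.card (RayClassGroup (Ideal.span {(n : 𝕆[s])})) ∧
    (∀ σ τ : GQ, σ s = s → τ s = s → ∀ x ∈ M, (σ * τ * σ⁻¹ * τ⁻¹) x = x) ∧
    (∃ (R : Type) (_ : Field R) (_ : NumberField R)
        (_ : Algebra (IntermediateField.adjoin ℚ {s}) R)
        (_ : IsGalois (IntermediateField.adjoin ℚ {s}) R)
        (ι : R →ₐ[IntermediateField.adjoin ℚ {s}] Qb)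
        (ω : RayClassGroup (Ideal.span {(n : 𝕆[s])}) →*
          (R ≃ₐ[IntermediateField.adjoin ℚ {s}] R)),
      Function.Bijective ω ∧ FrobeniusClasses R (span_natCast_ne_bot hn) ω ∧
        Set.range ι = (M : Set Qb)) ∧
    ∀ (R : Type) [Field R] [NumberField R] [Algebra (IntermediateField.adjoin ℚ {s}) R]
      [IsGalois (IntermediateField.adjoin ℚ {s}) R],
      (∃ ω : RayClassGroup (Ideal.span {(n : 𝕆[s])}) →*
          (R ≃ₐ[IntermediateField.adjoin ℚ {s}] R),
        FrobeniusClasses R (span_natCast_ne_bot hn) ω) →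
        ∀ (ι : R →ₐ[IntermediateField.adjoin ℚ {s}] Qb) (z : R), ι z ∈ M := by
  haveI : IsGalois ℚ Qb := FA.EC.isGalois_algebraicClosure
  haveI : Algebra.IsAlgebraic F Qb := Algebra.IsAlgebraic.tower_top (K := ℚ) F
  have hd0 := h.neg
  have hK := FA.Jugendtraum.finrank_adjoin_sqrt hd0 hs
  have hmem : ∀ (R : Type) [Field R] [NumberField R] [Algebra (IntermediateField.adjoin ℚ {s}) R]
      [IsGalois (IntermediateField.adjoin ℚ {s}) R],
      (∃ ω : RayClassGroup (Ideal.span {(n : 𝕆[s])}) →*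
          (R ≃ₐ[IntermediateField.adjoin ℚ {s}] R),
        FrobeniusClasses R (span_natCast_ne_bot hn) ω) →
        ∀ (ι : R →ₐ[IntermediateField.adjoin ℚ {s}] Qb) (z : R), ι z ∈ M := by
    intro R _ _ _ _ ⟨ω, hω⟩ ι z
    rw [← InfiniteGalois.fixedField_fixingSubgroup M, IntermediateField.mem_fixedField_iff]
    intro σ hσ
    rw [hM] at hσ
    obtain ⟨hσs, hσF, hσn⟩ := fix_of_mem_fixingSubgroup F _ s k n hσ
    exact fixed_of_weber_level h F E ψ hg2 hg3 hring hs (span_natCast_ne_bot hn) hn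
      (Ideal.mem_span_singleton_self _) ω (fun v hv Q τ hQ hτ => (hω v hv Q hQ).2 τ hτ) ι
      hσs hσF hσn z
  obtain ⟨R, _, _, _, _, hab, ω, hωb, hω, hrank, -⟩ :=
    FA.Summary.ray_class_field (IntermediateField.adjoin ℚ {s}) (span_natCast_ne_bot
      (K := IntermediateField.adjoin ℚ {s}) hn)
  haveI : Algebra.IsAlgebraic (IntermediateField.adjoin ℚ {s}) R :=
    Algebra.IsAlgebraic.of_finite _ _
  let ι : R →ₐ[IntermediateField.adjoin ℚ {s}] Qb := IsAlgClosed.lift
  let ιℚ : R →ₐ[ℚ] Qb := ι.toRingHom.toRatAlgHom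
  haveI : FiniteDimensional ℚ M := by
    rw [hM]
    haveI : Finite (weberValues (shortModel E) k n) :=
      ((finite_nsmul_eq_zero (W := shortModel E) hn).image _).to_subtype
    haveI : FiniteDimensional ℚ (IntermediateField.adjoin ℚ
        ({s} ∪ weberValues (shortModel E) k n)) :=
      IntermediateField.finiteDimensional_adjoin fun z _ => Algebra.IsIntegral.isIntegral z
    rw [Set.union_assoc, IntermediateField.adjoin_union, IntermediateField.adjoin_self]
    exact IntermediateField.finiteDimensional_sup _ _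
  have hR : finrank ℚ ιℚ.fieldRange =
      2 * Nat.card (RayClassGroup (Ideal.span {(n : 𝕆[s])})) := by
    show finrank ℚ ιℚ.range = _
    rw [← (AlgEquiv.ofInjectiveField ιℚ).toLinearEquiv.finrank_eq,
      ← finrank_mul_finrank ℚ (IntermediateField.adjoin ℚ {s}) R, hK, hrank]
  have hupper : finrank ℚ M ≤ 2 * Nat.card (RayClassGroup (Ideal.span {(n : 𝕆[s])})) := by
    rw [hM]
    exact finrank_adjoin_weber_le h F E hF ψ hg2 hg3 hring hs hn
  have heq : ιℚ.fieldRange = M := IntermediateField.eq_of_le_of_finrank_le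
    (by rintro _ ⟨z, rfl⟩; exact hmem R ⟨ω, hω⟩ ι z) (hupper.trans hR.ge)
  refine ⟨heq ▸ hR, fun σ τ hσ hτ x hx => ?_,
    ⟨R, inferInstance, inferInstance, inferInstance, inferInstance, ι, ω, hωb, hω, ?_⟩, hmem⟩
  · rw [← heq] at hx
    obtain ⟨z, rfl⟩ := hx
    exact commutator_fix hab ι hσ hτ z
  · rw [← heq]; rfl

/-- A change of variables to the short model, shifting the abscissae by `b₂ / 12`. -/
theorem exists_shift {F : Type*} [Field F] [CharZero F] (E : WeierstrassCurve F) :
    ∃ C : VariableChange F, C • E = shortModel E ∧ (C.u : F) = 1 ∧ C.r = -E.b₂ / 12 := by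
  have : Invertible (2 : F) := invertibleOfNonzero (by norm_num)
  have : Invertible (3 : F) := invertibleOfNonzero (by norm_num)
  have h4 : (E.toShortNF • E).c₄ = E.c₄ := by
    simp [variableChange_c₄, toShortNF, toCharNeTwoNF, VariableChange.mul_def]
  have h6 : (E.toShortNF • E).c₆ = E.c₆ := by
    simp [variableChange_c₆, toShortNF, toCharNeTwoNF, VariableChange.mul_def]
  refine ⟨E.toShortNF, ?_,
    by simp [toShortNF, toCharNeTwoNF, VariableChange.mul_def], ?_⟩
  · rw [shortModel, ← h4, ← h6, c₄_of_isShortNF, c₆_of_isShortNF]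
    ext
    · exact a₁_of_isShortNF _
    · exact a₂_of_isShortNF _
    · exact a₃_of_isShortNF _
    · show _ = -(-48 * (E.toShortNF • E).a₄) / 48
      ring
    · show _ = -(-864 * (E.toShortNF • E).a₆) / 864
      ring
  · simp [toShortNF, toCharNeTwoNF, VariableChange.mul_def, variableChange_def, b₂]
    ring

/-- Weber's values on the curve itself. -/
theorem adjoin_weberValues (h : Special d k) (F : IntermediateField ℚ Qb) (E : WeierstrassCurve F)
    [E.IsElliptic] [(shortModel E).IsElliptic] (s : Qb) (n : ℕ) :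
    IntermediateField.adjoin ℚ ((F : Set Qb) ∪ {s} ∪
        {v | ∃ (u w : Qb) (hu : (E.toAffine⁄Qb).Nonsingular u w),
          n • (Affine.Point.some u w hu : (E.toAffine⁄Qb).Point) = 0 ∧
            v = (u + (E.b₂ : Qb) / 12) ^ k}) =
      IntermediateField.adjoin ℚ ((F : Set Qb) ∪ {s} ∪ weberValues (shortModel E) k n) := by
  obtain ⟨C, hC, hu1, hr⟩ := exists_shift E
  have hC' : C.map (algebraMap F Qb) • E.baseChange Qb = (shortModel E).baseChange Qb := by
    simp only [WeierstrassCurve.baseChange, map_variableChange, hC]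
  set e := FA.Frob.vcEquiv _ hC'
  have hx : ∀ (x y : Qb) (hxy : ((shortModel E).toAffine⁄Qb).Nonsingular x y),
      ∃ (w : Qb) (hw : (E.toAffine⁄Qb).Nonsingular (x - (E.b₂ : Qb) / 12) w),
        e (Affine.Point.some x y hxy) = Affine.Point.some _ w hw := fun x y hxy => by
    have hX : FA.Frob.vcX (C.map (algebraMap F Qb)) x = x - (E.b₂ : Qb) / 12 := by
      simp [FA.Frob.vcX, VariableChange.map, hu1, hr, map_ofNat]
      ring
    exact ⟨_, hX ▸ Affine.equation_iff_nonsingular.mp
        ((FA.Frob.equation_vc _ hC' x y).mpr hxy.1),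
      (FA.Frob.vcEquiv_some _ hC' hxy).trans ((Affine.Point.some.injEq ..).mpr ⟨hX, rfl⟩)⟩
  refine le_antisymm (IntermediateField.adjoin.mono ℚ _ _ (Set.union_subset_union_right _ ?_))
    (IntermediateField.adjoin_le_iff.mpr ?_)
  · rintro _ ⟨u, w, hu, hP, rfl⟩
    refine ⟨e.symm (.some u w hu), by simp only [Set.mem_ofPred_eq, ← map_nsmul, hP, map_zero], ?_⟩
    have he := e.apply_symm_apply (.some u w hu)
    generalize e.symm (.some u w hu) = P at he
    rcases P with _ | ⟨x, y, hxy⟩
    · exact absurd (he.symm.trans (map_zero e)) (Affine.Point.some_ne_zero _)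
    · obtain ⟨w', hw', e'⟩ := hx x y hxy
      obtain ⟨rfl, -⟩ := (Affine.Point.some.injEq ..).mp (e'.symm.trans he)
      show x ^ k = _
      rw [sub_add_cancel]
  · rintro z (hz | ⟨P, hP, rfl⟩)
    · exact IntermediateField.subset_adjoin ℚ _ (Or.inl hz)
    rcases P with _ | ⟨x, y, hxy⟩
    · simp only [xP, zero_pow h.prime.ne_zero]
      exact zero_mem _
    · obtain ⟨w', hw', e'⟩ := hx x y hxy
      refine IntermediateField.subset_adjoin ℚ _ (Or.inr ⟨_, w', hw', ?_, ?_⟩)
      · rw [← e', ← map_nsmul, hP, map_zero]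
      · show x ^ k = _
        rw [sub_add_cancel]

theorem isElliptic_shortModel {F : Type*} [Field F] [CharZero F] (E : WeierstrassCurve F)
    [E.IsElliptic] : (shortModel E).IsElliptic := by
  obtain ⟨C, hC⟩ := exists_variableChange E
  exact hC ▸ inferInstance

end FA.CMWeber

end
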