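import Fermat.Agent.CMWeber.Action
import Fermat.Agent.IsogenyNF.GLTwo

/-!
# Abelian extensions of `ℚ(i)` and `ℚ(ζ₃)` in the fields of Weber's functions

An automorphism fixing the `k`th powers of the abscissae of the points killed by `n` multiplies the
abscissae by a `k`th root of unity.  On a twist by the `k`th root of a prime it can be arranged to
fix the abscissae, so it is trivial on the abelian extensions with modulus dividing `n`.
-/

set_option autoImplicit false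
set_option linter.style.haveILetI false
set_option linter.unusedSectionVars false

noncomputable section

open WeierstrassCurve NumberField IsDedekindDomain FA.Mazur.Wp FA.IsogenyNF FA.CMFields
open FA.Singular (Stable)
open FA.FieldClassBound (discK)
open FA.Ext (primeIdeal)
open FA.Hecke (RayClassGroup rayClass)
open FA.ClassNumberOne (xP scaled mem_scaled g₂_scaled g₃_scaled)
open scoped WeierstrassCurve.Affine Classical

local notation "Qb" => AlgebraicClosure ℚ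
local notation "GQ" => AlgebraicClosure ℚ ≃ₐ[ℚ] AlgebraicClosure ℚ

namespace FA.CMWeber

/-- An automorphism can be changed outside a finite extension so as to move a radical as wished. -/
theorem exists_agree_twist (N : IntermediateField ℚ Qb) [FiniteDimensional ℚ N] {k : ℕ}
    (hk : k.Prime) (hμ : ∀ z : Qb, z ^ k = 1 → z ∈ N) :
    ∃ (p : ℕ) (r : Qb), p ≠ 0 ∧ r ^ k = (p : Qb) ∧
      ∀ σ : GQ, (∀ z : Qb, z ^ k = 1 → σ z = z) → ∀ η : Qb, η ^ k = 1 →
        ∃ σ' : GQ, (∀ y ∈ N, σ' y = σ y) ∧ σ' r = η * r := by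
  haveI : IsGalois ℚ Qb := FA.EC.isGalois_algebraicClosure
  haveI : NumberField N := { }
  haveI := Fact.mk hk
  obtain ⟨p, hp, hp'⟩ := Nat.exists_infinite_primes ((discr N).natAbs + 1)
  have hpd : ¬ (p : ℤ) ∣ discr N := fun hd => by
    have := Nat.le_of_dvd (Int.natAbs_pos.mpr (NumberField.discr_ne_zero N))
      (Int.natCast_dvd.mp hd)
    omega
  obtain ⟨r, hr⟩ := IsAlgClosed.exists_pow_nat_eq ((p : ℕ) : Qb) hk.pos
  have hr0 : r ≠ 0 := fun e => by
    rw [e, zero_pow hk.ne_zero] at hr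
    exact hp'.ne_zero (Nat.cast_eq_zero.mp hr.symm)
  have hrN : r ∉ N := fun hmem => by
    have hint : IsIntegral ℤ (⟨r, hmem⟩ : N) := by
      refine IsIntegral.of_pow hk.pos ?_
      rw [show (⟨r, hmem⟩ : N) ^ k = ((p : ℕ) : N) from Subtype.ext (by simpa using hr)]
      exact map_natCast (algebraMap ℤ N) p ▸ isIntegral_algebraMap
    set x : 𝓞 N := ⟨⟨r, hmem⟩, hint⟩ with hx
    have hxk : x ^ k = (p : 𝓞 N) :=
      RingOfIntegers.coe_injective (Subtype.ext (by simpa [hx] using hr))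
    obtain ⟨P, hP, hpP⟩ := Ideal.exists_le_maximal (Ideal.span {x}) (by
      rw [Ne, Ideal.span_singleton_eq_top]
      intro hu
      have h' := (hu.pow k).map (Algebra.norm ℤ)
      rw [hxk, ← map_natCast (algebraMap ℤ (𝓞 N)), Algebra.norm_algebraMap,
        isUnit_pow_iff Module.finrank_pos.ne', Int.isUnit_iff_natAbs_eq, Int.natAbs_natCast] at h'
      exact hp'.ne_one h')
    have hxP : x ∈ P := hpP (Ideal.mem_span_singleton_self _)
    have hx0 : x ≠ 0 := fun e => by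
      rw [e, zero_pow hk.ne_zero] at hxk
      exact hp'.ne_zero (Nat.cast_eq_zero.mp hxk.symm)
    refine natCast_notMem_sq hp' hpd ⟨P, hP.isPrime, fun e => hx0 (by simpa [e] using hxP)⟩
      (hxk ▸ Ideal.pow_mem_of_mem P hxP k hk.pos) ?_
    rw [← hxk]
    exact Ideal.pow_le_pow_right hk.two_le (Ideal.pow_mem_pow hxP k)
  obtain ⟨g, hgN, hgr⟩ : ∃ g : GQ, (∀ y ∈ N, g y = y) ∧ g r ≠ r := by
    by_contra hcon
    push Not at hcon
    apply hrN
    rw [← InfiniteGalois.fixedField_fixingSubgroup N, IntermediateField.mem_fixedField_iff]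
    exact fun g hg => hcon g ((IntermediateField.mem_fixingSubgroup_iff _ _).mp hg)
  set η₀ : Qb := g r / r with hη₀
  have hgr' : g r = η₀ * r := by rw [hη₀, div_mul_cancel₀ _ hr0]
  have hη₀k : η₀ ^ k = 1 := by
    rw [hη₀, div_pow, ← map_pow, hr, map_natCast,
      div_self (Nat.cast_ne_zero.mpr hp'.ne_zero)]
  have hprim : IsPrimitiveRoot η₀ k := by
    have e := orderOf_eq_prime hη₀k fun e => hgr (by rw [hgr', e, one_mul])
    exact e ▸ IsPrimitiveRoot.orderOf _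
  have hpow : ∀ i : ℕ, (∀ y ∈ N, (g ^ i) y = y) ∧ (g ^ i) r = η₀ ^ i * r := fun i => by
    induction i with
    | zero => simp
    | succ i ih =>
      refine ⟨fun y hy => by rw [pow_succ', AlgEquiv.mul_apply, ih.1 y hy, hgN y hy], ?_⟩
      rw [pow_succ', AlgEquiv.mul_apply, ih.2, map_mul, map_pow, hgN _ (hμ _ hη₀k), hgr']
      ring
  refine ⟨p, r, hp'.ne_zero, hr, fun σ hσ η hη => ?_⟩
  have hεk : (σ r / r) ^ k = 1 := by
    rw [div_pow, ← map_pow, hr, map_natCast, div_self (Nat.cast_ne_zero.mpr hp'.ne_zero)]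
  haveI : NeZero k := ⟨hk.ne_zero⟩
  obtain ⟨i, -, hi⟩ := hprim.eq_pow_of_pow_eq_one (show (η / (σ r / r)) ^ k = 1 by
    rw [div_pow, hη, hεk, div_one])
  refine ⟨σ * g ^ i, fun y hy => by rw [AlgEquiv.mul_apply, (hpow i).1 y hy], ?_⟩
  rw [AlgEquiv.mul_apply, (hpow i).2, map_mul, map_pow, hσ _ hη₀k, hi]
  have : σ r ≠ 0 := by rwa [Ne, map_eq_zero_iff σ σ.injective]
  field_simp

variable {d : ℤ} {k : ℕ}

/-- The short model on the complex lattice. -/
theorem exists_short_emb {F : IntermediateField ℚ Qb} (E : WeierstrassCurve F) (ψ : F →+* ℂ)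
    {L : PeriodPair} (hg2 : L.g₂ = ψ E.c₄ / 12) (hg3 : L.g₃ = ψ E.c₆ / 216) :
    ∃ φ : Qb →+* ℂ, ((shortModel E).baseChange Qb).map φ = latCurve L ∧
      ∀ c : F, φ (c : Qb) = ψ c := by
  haveI : Algebra.IsAlgebraic F Qb := Algebra.IsAlgebraic.tower_top (K := ℚ) F
  letI := ψ.toAlgebra
  let φ : Qb →ₐ[F] ℂ := IsAlgClosed.lift
  have hψ : ∀ c : F, φ (c : Qb) = ψ c := φ.commutes
  refine ⟨(φ : Qb →+* ℂ), ?_, hψ⟩
  ext <;> simp [WeierstrassCurve.baseChange, shortModel, latCurve, hg2, hg3, hψ, map_ofNat] <;>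
    ring

/-- **An automorphism fixing the `k`th powers of the abscissae multiplies them by one root of
unity.** -/
theorem exists_uniform {F : IntermediateField ℚ Qb} {W : WeierstrassCurve F} [W.IsElliptic]
    {φ : Qb →+* ℂ} {L : PeriodPair} (hL : (W.baseChange Qb).map φ = latCurve L)
    (h : Special d k) (hring : IsMultiplierRing L (discK d)) {s : Qb} (hs : s ^ 2 = (d : Qb))
    {n : ℕ} (hn : n ≠ 0) (σ : Qb ≃ₐ[F] Qb) (hσs : σ s = s)
    (hσn : ∀ P : (W.toAffine⁄Qb).Point, n • P = 0 → σ (xP P ^ k) = xP P ^ k) :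
    (∀ z : Qb, z ^ k = 1 → σ z = z) ∧
      ∃ η : Qb, η ^ k = 1 ∧
        ∀ P : (W.toAffine⁄Qb).Point, n • P = 0 → σ (xP P) = η * xP P := by
  haveI : IsGalois ℚ Qb := FA.EC.isGalois_algebraicClosure
  haveI : Algebra.IsAlgebraic F Qb := Algebra.IsAlgebraic.tower_top (K := ℚ) F
  haveI : NeZero k := ⟨h.prime.ne_zero⟩
  obtain ⟨θ, t, m, g, ζ, -, -, hact, -, hζ, hσζ, hng, hgen, hrotx, -⟩ :=
    exists_rot_action hL h hring hs hn
  refine ⟨fun z hz => by
    obtain ⟨i, -, rfl⟩ := hζ.eq_pow_of_pow_eq_one hz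
    rw [map_pow, hσζ σ hσs], ?_⟩
  by_cases hg0 : g = 0
  · refine ⟨1, one_pow k, fun P hP => ?_⟩
    obtain ⟨i, j, rfl⟩ := hgen P hP
    simp [hg0, xP]
  obtain ⟨hcomm, -⟩ := hact σ hσs
  obtain ⟨i, hi, hi0⟩ : ∃ i : ℕ, σ (xP g) = ζ ^ i * xP g ∧ (xP g = 0 → i = 0) := by
    rcases eq_or_ne (xP g) 0 with hx | hx
    · exact ⟨0, by simp [hx], fun _ => rfl⟩
    · obtain ⟨i, -, hi⟩ := hζ.eq_pow_of_pow_eq_one (show (σ (xP g) / xP g) ^ k = 1 by
        rw [div_pow, ← map_pow, hσn g hng, div_self (pow_ne_zero _ hx)])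
      exact ⟨i, by rw [hi, div_mul_cancel₀ _ hx], fun h' => absurd h' hx⟩
  -- a power of the rotation
  let ρ : (W.toAffine⁄Qb).Point → (W.toAffine⁄Qb).Point := fun P => (2 : ℤ) • P + θ P
  have hρadd : ∀ (j : ℕ) P Q, ρ^[j] (P + Q) = ρ^[j] P + ρ^[j] Q := fun j => by
    induction j with
    | zero => exact fun P Q => rfl
    | succ j ih =>
      intro P Q
      simp only [Function.iterate_succ_apply', ih, ρ, map_add, zsmul_add]
      abel
  have hρθ : ∀ (j : ℕ) P, θ (ρ^[j] P) = ρ^[j] (θ P) := fun j => by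
    induction j with
    | zero => exact fun P => rfl
    | succ j ih =>
      intro P
      simp only [Function.iterate_succ_apply', ← ih, ρ, map_add, map_zsmul]
  have hρz : ∀ (j : ℕ) (c : ℤ) P, ρ^[j] (c • P) = c • ρ^[j] P :=
    fun j c P => (AddMonoidHom.mk' _ (hρadd j)).map_zsmul c P
  have hρx : ∀ (j : ℕ) P, xP (ρ^[j] P) * ζ ^ j = xP P := fun j => by
    induction j with
    | zero => intro P; simp
    | succ j ih =>
      intro P
      rw [Function.iterate_succ_apply', pow_succ', ← mul_assoc, hrotx, ih]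
  set j := (k - 1) * i with hj
  have hji : ∀ P, xP (ρ^[j] P) = ζ ^ i * xP P := fun P => by
    conv_rhs => rw [← hρx j P, mul_left_comm, ← pow_add]
    have e : i + j = k * i := by
      rw [hj]
      have := h.prime.pos
      calc i + (k - 1) * i = ((k - 1) + 1) * i := by ring
        _ = k * i := by congr 1; omega
    rw [e, pow_mul, hζ.pow_eq_one, one_pow, mul_one]
  have hσg : σ • g = ρ^[j] g ∨ σ • g = -ρ^[j] g := by
    have hx : xP (σ • g) = xP (ρ^[j] g) := by rw [xP_smul, hi, hji]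
    have h1 : σ • g ≠ 0 := by rwa [smul_ne_zero_iff_ne]
    have h2 : ρ^[j] g ≠ 0 := fun e => by
      have hz := hρx j g
      rw [e] at hz
      have hx0 : xP g = 0 := by rw [← hz]; exact zero_mul _
      rw [hj, hi0 hx0, mul_zero, Function.iterate_zero_apply] at e
      exact hg0 e
    revert hx h1 h2
    rcases σ • g with _ | ⟨x₁, y₁, ha⟩ <;> rcases ρ^[j] g with _ | ⟨x₂, y₂, hb⟩ <;>
      intro hx h1 h2
    · exact absurd rfl h1
    · exact absurd rfl h1
    · exact absurd rfl h2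
    have hx' : x₁ = x₂ := hx
    rcases Affine.Y_eq_of_X_eq ha.1 hb.1 hx' with hy | hy
    · exact Or.inl ((Affine.Point.some.injEq ..).mpr ⟨hx', hy⟩)
    · refine Or.inr ?_
      rw [Affine.Point.neg_some]
      exact (Affine.Point.some.injEq ..).mpr ⟨hx', hy⟩
  refine ⟨ζ ^ i, by rw [← pow_mul, mul_comm, pow_mul, hζ.pow_eq_one, one_pow], fun P hP => ?_⟩
  obtain ⟨a, b, rfl⟩ := hgen P hP
  rw [← xP_smul, ← hji, smul_add, smul_zsmul', smul_zsmul', ← hcomm]
  rcases hσg with e | e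
  · rw [e, hρθ, hρadd, hρz, hρz]
  · rw [e, map_neg, hρθ, hρadd, hρz, hρz, zsmul_neg, zsmul_neg, ← neg_add]
    rcases a • ρ^[j] g + b • ρ^[j] (θ g) with _ | ⟨x, y, hh⟩ <;> rfl

/-- **An automorphism fixing `F`, `√d` and the `k`th powers of the abscissae of level `n` is
trivial on the abelian extensions with modulus dividing `n`.** -/
theorem fixed_of_weber_level (h : Special d k) (F : IntermediateField ℚ Qb)
    [FiniteDimensional ℚ F] (E : WeierstrassCurve F) [E.IsElliptic] [(shortModel E).IsElliptic]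
    (ψ : F →+* ℂ) {L : PeriodPair} (hg2 : L.g₂ = ψ E.c₄ / 12) (hg3 : L.g₃ = ψ E.c₆ / 216)
    (hring : IsMultiplierRing L (discK d)) {s : Qb} (hs : s ^ 2 = (d : Qb))
    [NumberField (IntermediateField.adjoin ℚ {s})] {R : Type} [Field R] [NumberField R]
    [Algebra (IntermediateField.adjoin ℚ {s}) R] [IsGalois (IntermediateField.adjoin ℚ {s}) R]
    {𝔪 : Ideal (𝓞 (IntermediateField.adjoin ℚ {s}))} (h𝔪 : 𝔪 ≠ ⊥) {n : ℕ} (hn : n ≠ 0)
    (hn𝔪 : (n : 𝓞 (IntermediateField.adjoin ℚ {s})) ∈ 𝔪)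
    (ω : RayClassGroup 𝔪 →* (R ≃ₐ[IntermediateField.adjoin ℚ {s}] R))
    (hω : ∀ (v : HeightOneSpectrum (𝓞 (IntermediateField.adjoin ℚ {s})))
      (hv : v.asIdeal ⊔ 𝔪 = ⊤) (Q : HeightOneSpectrum (𝓞 R))
      (τ : R ≃ₐ[IntermediateField.adjoin ℚ {s}] R),
        Q.asIdeal.under (𝓞 (IntermediateField.adjoin ℚ {s})) = v.asIdeal →
          IsArithFrobAt (𝓞 (IntermediateField.adjoin ℚ {s})) τ Q.asIdeal →
            ω (rayClass h𝔪 ⟨primeIdeal v, hv⟩) = τ)
    (ι : R →ₐ[IntermediateField.adjoin ℚ {s}] Qb) {σ : GQ} (hσs : σ s = s)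
    (hσF : ∀ z ∈ F, σ z = z)
    (hσn : ∀ P : ((shortModel E).toAffine⁄Qb).Point, n • P = 0 → σ (xP P ^ k) = xP P ^ k)
    (z : R) : σ (ι z) = ι z := by
  haveI : IsGalois ℚ Qb := FA.EC.isGalois_algebraicClosure
  haveI : Algebra.IsAlgebraic F Qb := Algebra.IsAlgebraic.tower_top (K := ℚ) F
  haveI : NeZero k := ⟨h.prime.ne_zero⟩
  obtain ⟨φ, hL, hψ⟩ := exists_short_emb E ψ hg2 hg3
  let σF : Qb ≃ₐ[F] Qb := AlgEquiv.ofRingEquiv (f := σ.toRingEquiv) fun y => hσF y y.2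
  obtain ⟨hroots, η, hη, hηx⟩ := exists_uniform hL h hring hs hn σF hσs hσn
  obtain ⟨θ, t, m, g, ζ, -, -, -, -, hζ, -⟩ := exists_rot_action hL h hring hs hn
  set W := shortModel E with hW
  -- the finite extension
  set T : Set Qb := {s, ι z, ζ} ∪ xP '' {P : (W.toAffine⁄Qb).Point | n • P = 0} with hT
  haveI : Finite T := ((Set.toFinite ({s, ι z, ζ} : Set Qb)).union
    ((finite_nsmul_eq_zero (W := W) hn).image _)).to_subtype
  haveI : FiniteDimensional ℚ (IntermediateField.adjoin ℚ T) :=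
    IntermediateField.finiteDimensional_adjoin fun z _ => Algebra.IsIntegral.isIntegral z
  set N := F ⊔ IntermediateField.adjoin ℚ T with hN
  haveI : FiniteDimensional ℚ N := IntermediateField.finiteDimensional_sup _ _
  have hTN : ∀ y ∈ T, y ∈ N := fun y hy =>
    (le_sup_right : IntermediateField.adjoin ℚ T ≤ N) (IntermediateField.subset_adjoin ℚ T hy)
  have hζN : ζ ∈ N := hTN ζ (Or.inl (Or.inr (Or.inr rfl)))
  obtain ⟨p, r, hp, hr, htwist⟩ := exists_agree_twist N h.prime fun y hy => by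
    obtain ⟨i, -, rfl⟩ := hζ.eq_pow_of_pow_eq_one hy
    exact pow_mem hζN i
  obtain ⟨σ', hσ', hσ'r⟩ := htwist σ hroots η⁻¹ (by rw [inv_pow, hη, inv_one])
  obtain ⟨ρ, hρ⟩ := IsAlgClosed.exists_pow_nat_eq r two_pos
  have hρ0 : ρ ≠ 0 := fun e => by
    rw [← hρ, e, zero_pow two_ne_zero, zero_pow h.prime.ne_zero] at hr
    exact hp (Nat.cast_eq_zero.mp hr.symm)
  -- the twist
  have hcases : k = 2 ∧ E.c₆ = 0 ∨ k = 3 ∧ E.c₄ = 0 := by
    rcases g_vanish h (stable_rot hring) with ⟨hk, h0, -⟩ | ⟨hk, h0, -⟩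
    · refine Or.inl ⟨hk, ψ.injective ?_⟩
      rw [hg3] at h0
      simpa using h0
    · refine Or.inr ⟨hk, ψ.injective ?_⟩
      rw [hg2] at h0
      simpa using h0
  set W' : WeierstrassCurve F :=
    ⟨0, 0, 0, (p : F) * W.a₄, (p : F) * W.a₆⟩ with hW'
  have h4 : ((W'.a₄ : F) : Qb) = r ^ 2 * (W.a₄ : Qb) := by
    rcases hcases with ⟨rfl, -⟩ | ⟨rfl, h0⟩
    · simp [hW', hr]
    · simp [hW', hW, shortModel, h0]
  have h6 : ((W'.a₆ : F) : Qb) = r ^ 3 * (W.a₆ : Qb) := by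
    rcases hcases with ⟨rfl, h0⟩ | ⟨rfl, -⟩
    · simp [hW', hW, shortModel, h0]
    · simp [hW', hr]
  let C : VariableChange Qb := ⟨(Units.mk0 ρ hρ0)⁻¹, 0, 0, 0⟩
  have hC : C • W.baseChange Qb = W'.baseChange Qb := by
    ext
    all_goals simp [variableChange_def, C, WeierstrassCurve.baseChange, hW', hW, shortModel]
    · rw [show ρ ^ 4 = r ^ 2 by rw [← hρ]; ring]
      simpa [hW', hW, shortModel, div_eq_mul_inv, mul_assoc] using h4.symm
    · rw [show ρ ^ 6 = r ^ 3 by rw [← hρ]; ring]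
      simpa [hW', hW, shortModel, div_eq_mul_inv, mul_assoc] using h6.symm
  haveI : W'.IsElliptic := by
    haveI : (W'.baseChange Qb).IsElliptic := hC ▸ inferInstance
    refine ⟨isUnit_iff_ne_zero.mpr fun e => ?_⟩
    have h' := (W'.baseChange Qb).isUnit_Δ
    simp [WeierstrassCurve.baseChange, e] at h'
  have hu0 : (φ ρ)⁻¹ ≠ 0 := inv_ne_zero (by simpa using hρ0)
  have hcm : ∃ L' : PeriodPair, L'.g₂ = ψ W'.c₄ / 12 ∧ L'.g₃ = ψ W'.c₆ / 216 ∧
      ∃ ω : ℂ, (∀ i : ℤ, ω ≠ i) ∧ (∀ l ∈ L'.lattice, ω * l ∈ L'.lattice) ∧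
        ∃ x y : ℚ, (ω - (x : ℂ)) ^ 2 = (d : ℂ) * (y : ℂ) ^ 2 := by
    obtain ⟨ω₁, hω₁, hst, hxy⟩ := FA.CMRayClass.exists_multiplier_mem h.neg hring
    refine ⟨scaled L hu0, ?_, ?_, ω₁, hω₁, fun l hl => ?_, hxy⟩
    · have e := congrArg φ h4
      rw [map_mul, map_pow, hψ, hψ, ← hρ, map_pow] at e
      rw [g₂_scaled, inv_inv, hg2, show W'.c₄ = -48 * W'.a₄ by
        simp [hW', WeierstrassCurve.c₄, b₂, b₄]; ring, map_mul, e]
      simp [hW, shortModel, map_ofNat]
      ring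
    · have e := congrArg φ h6
      rw [map_mul, map_pow, hψ, hψ, ← hρ, map_pow] at e
      rw [g₃_scaled, inv_inv, hg3, show W'.c₆ = -864 * W'.a₆ by
        simp [hW', WeierstrassCurve.c₆, b₂, b₄, b₆]; ring, map_mul, e]
      simp [hW, shortModel, map_ofNat]
      ring
    · rw [mem_scaled] at hl ⊢
      rw [mul_assoc]
      exact hst _ hl
  refine (hσ' _ (hTN _ (Or.inl (Or.inr (Or.inl rfl))))).symm.trans ?_
  refine FA.CMRayClass.fixed_of_level F W' ψ h.squarefree h.neg hcm hs h𝔪 hn hn𝔪 ω hω ι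
    ((hσ' s (hTN s (Or.inl (Or.inl rfl)))).trans hσs)
    (fun y hy => (hσ' y ((le_sup_left : F ≤ N) hy)).trans (hσF y hy)) (fun P hP => ?_) z
  set e := FA.Frob.vcEquiv C hC
  have hP' : n • e P = 0 := by rw [← map_nsmul, hP, map_zero]
  have hx : xP P = r * xP (e P) := by
    rcases P with _ | ⟨x, y, hxy⟩
    · simp [e, xP]
      exact Or.inr rfl
    · show x = r * FA.Frob.vcX C x
      simp only [FA.Frob.vcX, C, Units.val_inv_eq_inv_val, Units.val_mk0, inv_pow, hρ, add_zero]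
      rw [← mul_assoc, mul_inv_cancel₀ (fun e0 : r = 0 => hρ0 (by simpa [e0] using hρ)), one_mul]
  rw [hx, map_mul, hσ'r, hσ' _ (hTN _ (Or.inr ⟨_, hP', rfl⟩)),
    show σ (xP (e P)) = η * xP (e P) from hηx _ hP']
  have : η ≠ 0 := fun e0 => by simp [e0, zero_pow h.prime.ne_zero] at hη
  field_simp

end FA.CMWeber

end
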